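import Fermat.Agent.Lib.Cheb.Chebotarev
import Fermat.Agent.S58.Spec

/-!
# S58 leaf CHEB (helper115): `ChebCharpolyStatement`

Two `GaloisRepAdic O` (`O` a complete DVR) whose Frobenius characteristic polynomials agree at
all primes outside a finite set `T` have the same characteristic polynomial at every element of
`Gal(ℚ̄/ℚ)`.

Proof.  Fix `σ` and `n`.  Adic continuity gives finite extensions `L₁`, `L₂` of `ℚ` such that
every element fixing `L_i` acts trivially on `V_i / 𝔪ⁿ V_i`.  By the qualitative Chebotarev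
theorem (`Lib.Cheb.chebotarev`) there is a Frobenius element `τ` at a prime `ℓ ∉ T` with
`τ = σ` on `L₁ ⊔ L₂`.  Then `ρ_i σ ≡ ρ_i τ` modulo `𝔪ⁿ`, so the characteristic polynomials of
`ρ_i σ` and `ρ_i τ` have the same image in `(O ⧸ 𝔪ⁿ)[X]` (`LinearMap.charpoly_baseChange`).
Hence the coefficients of `charpoly (ρ₁ σ) - charpoly (ρ₂ σ)` lie in `⋂ 𝔪ⁿ = 0` (Krull).
-/

set_option autoImplicit false

open Polynomial
open scoped TensorProduct

namespace Fermat.Agent.S58.H115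

section Congr

variable {R : Type*} [CommRing R] {M : Type*} [AddCommGroup M] [Module R M]

/-- Tensoring with `R ⧸ I` kills `I • ⊤`. -/
theorem tmul_eq_zero_of_mem_smul_top (I : Ideal R) (c : R ⧸ I) {x : M}
    (hx : x ∈ I • (⊤ : Submodule R M)) : c ⊗ₜ[R] x = (0 : (R ⧸ I) ⊗[R] M) := by
  refine Submodule.smul_induction_on
    (p := fun x => c ⊗ₜ[R] x = (0 : (R ⧸ I) ⊗[R] M)) hx ?_ ?_
  · intro a ha w _
    rw [TensorProduct.tmul_smul, TensorProduct.smul_tmul', Algebra.smul_def,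
      Ideal.Quotient.algebraMap_eq, Ideal.Quotient.eq_zero_iff_mem.mpr ha, zero_mul,
      TensorProduct.zero_tmul]
  · intro x y hx hy
    rw [TensorProduct.tmul_add, hx, hy, add_zero]

/-- Two endomorphisms which agree modulo `I` have the same base change to `R ⧸ I`. -/
theorem baseChange_eq_of_sub_mem (I : Ideal R) (f g : Module.End R M)
    (h : ∀ v : M, f v - g v ∈ I • (⊤ : Submodule R M)) :
    f.baseChange (R ⧸ I) = g.baseChange (R ⧸ I) := by
  refine LinearMap.ext fun w => ?_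
  induction w using TensorProduct.induction_on with
  | zero => rw [map_zero, map_zero]
  | tmul c v =>
    rw [LinearMap.baseChange_tmul, LinearMap.baseChange_tmul, ← sub_eq_zero,
      ← TensorProduct.tmul_sub]
    exact tmul_eq_zero_of_mem_smul_top I c (h v)
  | add x y hx hy => rw [map_add, map_add, hx, hy]

/-- Two endomorphisms of a finite free module which agree modulo `I` have characteristic
polynomials with the same image in `(R ⧸ I)[X]`. -/
theorem charpoly_map_eq_of_sub_mem [Module.Free R M] [Module.Finite R M] (I : Ideal R)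
    (f g : Module.End R M) (h : ∀ v : M, f v - g v ∈ I • (⊤ : Submodule R M)) :
    (LinearMap.charpoly f).map (Ideal.Quotient.mk I) =
      (LinearMap.charpoly g).map (Ideal.Quotient.mk I) := by
  have h1 := LinearMap.charpoly_baseChange (A := R ⧸ I) f
  have h2 := LinearMap.charpoly_baseChange (A := R ⧸ I) g
  rw [Ideal.Quotient.algebraMap_eq] at h1 h2
  rw [← h1, ← h2, baseChange_eq_of_sub_mem I f g h]

/-- A linear map preserves `I • ⊤`. -/
theorem map_mem_smul_top_of_mem (I : Ideal R) (f : Module.End R M) {x : M}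
    (hx : x ∈ I • (⊤ : Submodule R M)) : f x ∈ I • (⊤ : Submodule R M) := by
  refine Submodule.smul_induction_on (p := fun x => f x ∈ I • (⊤ : Submodule R M)) hx ?_ ?_
  · intro a ha w _
    rw [map_smul]
    exact Submodule.smul_mem_smul ha Submodule.mem_top
  · intro x y hx hy
    rw [map_add]
    exact Submodule.add_mem _ hx hy

end Congr

/-- Approximation of `ρ σ` by `ρ τ` for a Frobenius element `τ` at a prime outside `T`,
simultaneously for two adic representations, modulo `𝔪ⁿ`. -/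
theorem exists_frobenius_approx {O : Type} [CommRing O] [IsLocalRing O]
    (ρ₁ ρ₂ : GaloisRepAdic O) (T : Finset ℕ) (σ : GQ) (n : ℕ) :
    ∃ (ℓ : ℕ) (A : ValuationSubring Qb) (τ : GQ),
      ℓ.Prime ∧ ℓ ∉ T ∧ A.LiesOverPrime ℓ ∧ A.IsFrobeniusAt τ ℓ ∧
      (∀ v : ρ₁.V, ρ₁.ρ σ v - ρ₁.ρ τ v ∈
        (IsLocalRing.maximalIdeal O ^ n) • (⊤ : Submodule O ρ₁.V)) ∧
      (∀ v : ρ₂.V, ρ₂.ρ σ v - ρ₂.ρ τ v ∈
        (IsLocalRing.maximalIdeal O ^ n) • (⊤ : Submodule O ρ₂.V)) := by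
  obtain ⟨L₁, hL₁, h₁⟩ := ρ₁.isAdicContinuous n
  obtain ⟨L₂, hL₂, h₂⟩ := ρ₂.isAdicContinuous n
  have := hL₁
  have := hL₂
  have hE : FiniteDimensional ℚ (L₁ ⊔ L₂ : IntermediateField ℚ Qb) :=
    IntermediateField.finiteDimensional_sup L₁ L₂
  obtain ⟨ℓ, A, τ, hℓ, hℓT, hA, hτ, -, hτσ⟩ :=
    Fermat.Agent.Lib.Cheb.chebotarev (L₁ ⊔ L₂) hE σ T
  -- `h := τ⁻¹ σ` fixes `L₁ ⊔ L₂`
  have hfix : ∀ x ∈ (L₁ ⊔ L₂ : IntermediateField ℚ Qb), (τ⁻¹ * σ) x = x := by
    intro x hx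
    rw [AlgEquiv.mul_apply, ← hτσ x hx]
    exact τ.symm_apply_apply x
  have hσ : σ = τ * (τ⁻¹ * σ) := by group
  refine ⟨ℓ, A, τ, hℓ, hℓT, hA, hτ, fun v => ?_, fun v => ?_⟩
  · have hv := h₁ (τ⁻¹ * σ) (fun x hx => hfix x (le_sup_left (a := L₁) (b := L₂) hx)) v
    have hv' := map_mem_smul_top_of_mem _ (ρ₁.ρ τ) hv
    rw [map_sub] at hv'
    have : ρ₁.ρ σ v = ρ₁.ρ τ (ρ₁.ρ (τ⁻¹ * σ) v) := by
      conv_lhs => rw [hσ, map_mul]
      rfl
    rw [this]
    exact hv'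
  · have hv := h₂ (τ⁻¹ * σ) (fun x hx => hfix x (le_sup_right (a := L₁) (b := L₂) hx)) v
    have hv' := map_mem_smul_top_of_mem _ (ρ₂.ρ τ) hv
    rw [map_sub] at hv'
    have : ρ₂.ρ σ v = ρ₂.ρ τ (ρ₂.ρ (τ⁻¹ * σ) v) := by
      conv_lhs => rw [hσ, map_mul]
      rfl
    rw [this]
    exact hv'

/-- **S58 leaf CHEB.** -/
theorem chebCharpoly : Fermat.Agent.S58.ChebCharpolyStatement := by
  intro O _ _ _ _ _ ρ₁ ρ₂ T hT σ
  -- it suffices to compare coefficients modulo every power of the maximal ideal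
  have hkrull : (⨅ n : ℕ, IsLocalRing.maximalIdeal O ^ n) = ⊥ :=
    Ideal.iInf_pow_eq_bot_of_isLocalRing _ (Ideal.IsMaximal.ne_top inferInstance)
  refine Polynomial.ext fun k => ?_
  rw [← sub_eq_zero, ← Ideal.mem_bot, ← hkrull, Ideal.mem_iInf]
  intro n
  obtain ⟨ℓ, A, τ, hℓ, hℓT, hA, hτ, h₁, h₂⟩ := exists_frobenius_approx ρ₁ ρ₂ T σ n
  have e₁ := charpoly_map_eq_of_sub_mem (IsLocalRing.maximalIdeal O ^ n) (ρ₁.ρ σ) (ρ₁.ρ τ) h₁
  have e₂ := charpoly_map_eq_of_sub_mem (IsLocalRing.maximalIdeal O ^ n) (ρ₂.ρ σ) (ρ₂.ρ τ) h₂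
  have e := hT ℓ hℓ hℓT A hA τ hτ
  have key : (LinearMap.charpoly (ρ₁.ρ σ)).map (Ideal.Quotient.mk _) =
      (LinearMap.charpoly (ρ₂.ρ σ)).map (Ideal.Quotient.mk (IsLocalRing.maximalIdeal O ^ n)) := by
    rw [e₁, e₂, e]
  have hk := congrArg (fun P => Polynomial.coeff P k) key
  simp only [Polynomial.coeff_map] at hk
  exact Ideal.Quotient.eq.mp hk

end Fermat.Agent.S58.H115
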